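/-
S52 / Program E, package E1 (helper76): the naive height on `RatFunc F` and the
"Gauss lemma at infinity":  `ht r + ht s` is the maximal degree of any primitive triple
`(w1, w2, w3)` of polynomials with `r + s = w2 / w1` and `r * s = w3 / w1`.

Mathlib only.
-/
import Mathlib

set_option autoImplicit false

open Polynomial

noncomputable section

namespace Fermat.Agent.S52.H76

variable {F : Type*} [Field F]

/-- The naive height of a rational function: the maximum of the degrees of its reduced numerator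
and denominator. -/
def ht (r : RatFunc F) : ℕ := max r.num.natDegree r.denom.natDegree

theorem natDegree_eq_of_assoc {p q : F[X]} (h : Associated p q) : p.natDegree = q.natDegree :=
  natDegree_eq_of_degree_eq (degree_eq_degree_of_associated h)

/-- Two coprime pairs with equal cross products are associated componentwise. -/
theorem associated_of_cross {a b n d : F[X]} (hab : IsCoprime a b) (hnd : IsCoprime n d)
    (h : n * b = a * d) : Associated n a ∧ Associated d b := by
  have h1 : n ∣ a := hnd.dvd_of_dvd_mul_right (Dvd.intro _ h)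
  have h2 : a ∣ n := hab.dvd_of_dvd_mul_right (Dvd.intro _ h.symm)
  have h3 : d ∣ b := hnd.symm.dvd_of_dvd_mul_left (Dvd.intro_left _ h.symm)
  have h4 : b ∣ d := hab.symm.dvd_of_dvd_mul_left (Dvd.intro_left _ h)
  exact ⟨associated_of_dvd_dvd h1 h2, associated_of_dvd_dvd h3 h4⟩

/-- The height of a quotient of coprime polynomials. -/
theorem ht_eq {r : RatFunc F} {a b : F[X]} (hb : b ≠ 0) (hab : IsCoprime a b)
    (hr : r = algebraMap F[X] (RatFunc F) a / algebraMap F[X] (RatFunc F) b) :
    ht r = max a.natDegree b.natDegree := by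
  have h := (RatFunc.num_mul_eq_mul_denom_iff hb).mpr hr
  obtain ⟨h1, h2⟩ := associated_of_cross hab (RatFunc.isCoprime_num_denom r) h
  rw [ht, natDegree_eq_of_assoc h1, natDegree_eq_of_assoc h2]

/-- Three polynomials without a common irreducible factor satisfy a Bézout relation. -/
theorem exists_bezout3 (w1 w2 w3 : F[X])
    (h : ∀ p : F[X], Irreducible p → p ∣ w1 → p ∣ w2 → p ∣ w3 → False) :
    ∃ u1 u2 u3 : F[X], u1 * w1 + u2 * w2 + u3 * w3 = 1 := by
  classical
  have hg1 : EuclideanDomain.gcd w1 (EuclideanDomain.gcd w2 w3) ∣ w1 :=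
    EuclideanDomain.gcd_dvd_left _ _
  have hg2 : EuclideanDomain.gcd w1 (EuclideanDomain.gcd w2 w3) ∣ w2 :=
    (EuclideanDomain.gcd_dvd_right _ _).trans (EuclideanDomain.gcd_dvd_left _ _)
  have hg3 : EuclideanDomain.gcd w1 (EuclideanDomain.gcd w2 w3) ∣ w3 :=
    (EuclideanDomain.gcd_dvd_right _ _).trans (EuclideanDomain.gcd_dvd_right _ _)
  have hu : IsUnit (EuclideanDomain.gcd w1 (EuclideanDomain.gcd w2 w3)) := by
    by_contra hnu
    by_cases hg0 : EuclideanDomain.gcd w1 (EuclideanDomain.gcd w2 w3) = 0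
    · rw [hg0] at hg1 hg2 hg3
      exact h X irreducible_X ((dvd_zero X).trans hg1) ((dvd_zero X).trans hg2)
        ((dvd_zero X).trans hg3)
    · obtain ⟨p, hp, hpg⟩ := WfDvdMonoid.exists_irreducible_factor hnu hg0
      exact h p hp (hpg.trans hg1) (hpg.trans hg2) (hpg.trans hg3)
  have e1 : ∃ x y : F[X], EuclideanDomain.gcd w1 (EuclideanDomain.gcd w2 w3) =
      w1 * x + EuclideanDomain.gcd w2 w3 * y :=
    ⟨_, _, EuclideanDomain.gcd_eq_gcd_ab w1 (EuclideanDomain.gcd w2 w3)⟩
  have e2 : ∃ x y : F[X], EuclideanDomain.gcd w2 w3 = w2 * x + w3 * y :=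
    ⟨_, _, EuclideanDomain.gcd_eq_gcd_ab w2 w3⟩
  obtain ⟨v, hv⟩ := hu.exists_left_inv
  obtain ⟨x1, y1, h1⟩ := e1
  obtain ⟨x2, y2, h2⟩ := e2
  refine ⟨v * x1, v * y1 * x2, v * y1 * y2, ?_⟩
  rw [← hv, h1, h2]
  ring

/-- Two proportional primitive triples differ by a nonzero constant. -/
theorem const_of_proportional {a1 a2 a3 b1 b2 b3 : F[X]} (ha1 : a1 ≠ 0)
    (ha : ∃ u1 u2 u3 : F[X], u1 * a1 + u2 * a2 + u3 * a3 = 1)
    (hb : ∃ u1 u2 u3 : F[X], u1 * b1 + u2 * b2 + u3 * b3 = 1)
    (h2 : a1 * b2 = a2 * b1) (h3 : a1 * b3 = a3 * b1) :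
    ∃ c : F, c ≠ 0 ∧ b1 = C c * a1 ∧ b2 = C c * a2 ∧ b3 = C c * a3 := by
  obtain ⟨u1, u2, u3, hu⟩ := ha
  obtain ⟨v1, v2, v3, hv⟩ := hb
  have d1 : b1 = a1 * (u1 * b1 + u2 * b2 + u3 * b3) := by
    calc b1 = b1 * (u1 * a1 + u2 * a2 + u3 * a3) := by rw [hu, mul_one]
      _ = u1 * a1 * b1 + u2 * (a2 * b1) + u3 * (a3 * b1) := by ring
      _ = u1 * a1 * b1 + u2 * (a1 * b2) + u3 * (a1 * b3) := by rw [h2, h3]
      _ = a1 * (u1 * b1 + u2 * b2 + u3 * b3) := by ring
  have d2 : a1 = b1 * (v1 * a1 + v2 * a2 + v3 * a3) := by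
    calc a1 = a1 * (v1 * b1 + v2 * b2 + v3 * b3) := by rw [hv, mul_one]
      _ = v1 * a1 * b1 + v2 * (a1 * b2) + v3 * (a1 * b3) := by ring
      _ = v1 * a1 * b1 + v2 * (a2 * b1) + v3 * (a3 * b1) := by rw [h2, h3]
      _ = b1 * (v1 * a1 + v2 * a2 + v3 * a3) := by ring
  have hunit : IsUnit (u1 * b1 + u2 * b2 + u3 * b3) := by
    refine IsUnit.of_mul_eq_one (v1 * a1 + v2 * a2 + v3 * a3) ?_
    have : a1 * ((u1 * b1 + u2 * b2 + u3 * b3) * (v1 * a1 + v2 * a2 + v3 * a3)) = a1 * 1 := by
      rw [← mul_assoc, ← d1, ← d2, mul_one]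
    exact mul_left_cancel₀ ha1 this
  obtain ⟨c, hc, hcs⟩ := Polynomial.isUnit_iff.mp hunit
  have hc0 : c ≠ 0 := hc.ne_zero
  have hb1 : b1 = C c * a1 := by rw [hcs, mul_comm]; exact d1
  refine ⟨c, hc0, hb1, ?_, ?_⟩
  · have : a1 * b2 = a1 * (C c * a2) := by rw [h2, hb1]; ring
    exact mul_left_cancel₀ ha1 this
  · have : a1 * b3 = a1 * (C c * a3) := by rw [h3, hb1]; ring
    exact mul_left_cancel₀ ha1 this

/-- The degree count behind the Gauss lemma at infinity. -/
theorem natDegree_triple {a b c d : F[X]} (hb : b ≠ 0) (hd : d ≠ 0) :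
    max (b * d).natDegree (max (a * d + b * c).natDegree (a * c).natDegree) =
      max a.natDegree b.natDegree + max c.natDegree d.natDegree := by
  have hbd : (b * d).natDegree = b.natDegree + d.natDegree := natDegree_mul hb hd
  have had : (a * d).natDegree ≤ a.natDegree + d.natDegree := natDegree_mul_le
  have hbc : (b * c).natDegree ≤ b.natDegree + c.natDegree := natDegree_mul_le
  have hac : (a * c).natDegree ≤ a.natDegree + c.natDegree := natDegree_mul_le
  have hsum : (a * d + b * c).natDegree ≤ max (a * d).natDegree (b * c).natDegree :=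
    natDegree_add_le _ _
  rcases le_or_gt a.natDegree b.natDegree with hab | hab
  · rcases le_or_gt c.natDegree d.natDegree with hcd | hcd
    · rw [max_eq_right hab, max_eq_right hcd]
      omega
    · have hc : c ≠ 0 := by
        rintro rfl
        simp at hcd
      have hbc' : (b * c).natDegree = b.natDegree + c.natDegree := natDegree_mul hb hc
      have hlt : (a * d).natDegree < (b * c).natDegree := by omega
      have := natDegree_add_eq_right_of_natDegree_lt hlt
      rw [max_eq_right hab, max_eq_left hcd.le]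
      omega
  · have ha : a ≠ 0 := by
      rintro rfl
      simp at hab
    rcases le_or_gt c.natDegree d.natDegree with hcd | hcd
    · have had' : (a * d).natDegree = a.natDegree + d.natDegree := natDegree_mul ha hd
      have hlt : (b * c).natDegree < (a * d).natDegree := by omega
      have := natDegree_add_eq_left_of_natDegree_lt hlt
      rw [max_eq_left hab.le, max_eq_right hcd]
      omega
    · have hc : c ≠ 0 := by
        rintro rfl
        simp at hcd
      have hac' : (a * c).natDegree = a.natDegree + c.natDegree := natDegree_mul ha hc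
      rw [max_eq_left hab.le, max_eq_left hcd.le]
      omega

/-- The canonical triple of two reduced fractions is primitive. -/
theorem prim_of_coprime {a b c d : F[X]} (hab : IsCoprime a b) (hcd : IsCoprime c d)
    (p : F[X]) (hp : Irreducible p) (h1 : p ∣ b * d) (h2 : p ∣ a * d + b * c) (h3 : p ∣ a * c) :
    False := by
  have hpp : Prime p := hp.prime
  have hnab : ¬ (p ∣ a ∧ p ∣ b) := fun h => hp.not_isUnit (hab.isUnit_of_dvd' h.1 h.2)
  have hncd : ¬ (p ∣ c ∧ p ∣ d) := fun h => hp.not_isUnit (hcd.isUnit_of_dvd' h.1 h.2)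
  rcases hpp.dvd_or_dvd h1 with hb | hd
  · have hna : ¬ p ∣ a := fun h => hnab ⟨h, hb⟩
    have hc : p ∣ c := (hpp.dvd_or_dvd h3).resolve_left hna
    have had : p ∣ a * d := by
      have : p ∣ a * d + b * c - b * c := dvd_sub h2 (Dvd.dvd.mul_right hb c)
      simpa using this
    exact hncd ⟨hc, (hpp.dvd_or_dvd had).resolve_left hna⟩
  · have hnc : ¬ p ∣ c := fun h => hncd ⟨h, hd⟩
    have ha : p ∣ a := (hpp.dvd_or_dvd h3).resolve_right hnc
    have hbc : p ∣ b * c := by
      have : p ∣ a * d + b * c - a * d := dvd_sub h2 (Dvd.dvd.mul_right ha d)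
      simpa using this
    exact hnab ⟨ha, (hpp.dvd_or_dvd hbc).resolve_right hnc⟩

/-- **Gauss lemma at infinity.** If `(w1, w2, w3)` is a primitive triple of polynomials with
`r + s = w2 / w1` and `r * s = w3 / w1`, then `ht r + ht s` is the maximum of the degrees of
`w1, w2, w3`. -/
theorem ht_add_ht {r s : RatFunc F} {w1 w2 w3 : F[X]} (hw1 : w1 ≠ 0)
    (hprim : ∀ p : F[X], Irreducible p → p ∣ w1 → p ∣ w2 → p ∣ w3 → False)
    (hsum : r + s = algebraMap F[X] (RatFunc F) w2 / algebraMap F[X] (RatFunc F) w1)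
    (hprod : r * s = algebraMap F[X] (RatFunc F) w3 / algebraMap F[X] (RatFunc F) w1) :
    ht r + ht s = max w1.natDegree (max w2.natDegree w3.natDegree) := by
  have hb : r.denom ≠ 0 := RatFunc.denom_ne_zero r
  have hd : s.denom ≠ 0 := RatFunc.denom_ne_zero s
  have hb' : algebraMap F[X] (RatFunc F) r.denom ≠ 0 := RatFunc.algebraMap_ne_zero hb
  have hd' : algebraMap F[X] (RatFunc F) s.denom ≠ 0 := RatFunc.algebraMap_ne_zero hd
  have hw1' : algebraMap F[X] (RatFunc F) w1 ≠ 0 := RatFunc.algebraMap_ne_zero hw1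
  have hr := RatFunc.num_div_denom r
  have hs := RatFunc.num_div_denom s
  have inj := RatFunc.algebraMap_injective F
  -- cross relations
  have c2 : w1 * (r.num * s.denom + r.denom * s.num) = w2 * (r.denom * s.denom) := by
    apply inj
    rw [← hr, ← hs] at hsum
    simp only [map_mul, map_add]
    field_simp at hsum
    linear_combination hsum
  have c3 : w1 * (r.num * s.num) = w3 * (r.denom * s.denom) := by
    apply inj
    rw [← hr, ← hs] at hprod
    simp only [map_mul]
    field_simp at hprod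
    linear_combination hprod
  obtain ⟨c, hc, e1, e2, e3⟩ := const_of_proportional hw1 (exists_bezout3 _ _ _ hprim)
    (exists_bezout3 _ _ _
      (prim_of_coprime (RatFunc.isCoprime_num_denom r) (RatFunc.isCoprime_num_denom s)))
    c2 c3
  have n1 : (r.denom * s.denom).natDegree = w1.natDegree := by rw [e1, natDegree_C_mul hc]
  have n2 : (r.num * s.denom + r.denom * s.num).natDegree = w2.natDegree := by
    rw [e2, natDegree_C_mul hc]
  have n3 : (r.num * s.num).natDegree = w3.natDegree := by rw [e3, natDegree_C_mul hc]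
  rw [ht, ht, ← n1, ← n2, ← n3]
  exact (natDegree_triple hb hd).symm

end Fermat.Agent.S52.H76
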