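/-
S52 / Program E, package E1 (helper76): the polynomial core of Manin's identity (M*).

For `x = U / V` (coprime polynomials in `t = X`) the sum and the product of the `x`-coordinates
of `P + P0` and `P - P0` on the twist `f(t) y^2 = f(x)`, `f = x^3 + A x + B`, `P0 = (t, 1)` are
`W2 / W1` and `W3 / W1`, where

  `W1 = (U - t V)^2`, `W2 = 2 (U t + A V)(U + t V) + 4 B V^2`, `W3 = (U t - A V)^2 - 4 B V (U + t V)`.

This file: the triple `(W1, W2, W3)` is primitive and its maximal degree is
`2 * max (deg U) (deg V) + 2`.  Mathlib only.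
-/
import Fermat.Agent.S52.H76.Height

set_option autoImplicit false

open Polynomial

noncomputable section

namespace Fermat.Agent.S52.H76

variable {F : Type*} [Field F]

/-- `f(t) = t^3 + A t + B`. -/
def fPoly (A B : F) : F[X] := X ^ 3 + C A * X + C B

/-- `g(t) = (t^2 - A)^2 - 8 B t`, the numerator of `x(2 P0)`. -/
def gPoly (A B : F) : F[X] := (X ^ 2 - C A) ^ 2 - 8 * C B * X

/-- `W1 = (U - t V)^2`. -/
def W1 (U V : F[X]) : F[X] := (U - X * V) ^ 2

/-- `W2 = 2 (U t + A V)(U + t V) + 4 B V^2`. -/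
def W2 (A B : F) (U V : F[X]) : F[X] := 2 * (U * X + C A * V) * (U + X * V) + 4 * C B * V ^ 2

/-- `W3 = (U t - A V)^2 - 4 B V (U + t V)`. -/
def W3 (A B : F) (U V : F[X]) : F[X] := (U * X - C A * V) ^ 2 - 4 * C B * V * (U + X * V)

/-- The classical identity showing that `f` and `g` are coprime when the discriminant is nonzero. -/
theorem fg_identity (A B : F) :
    (3 * X ^ 2 + 4 * C A) * gPoly A B - (3 * X ^ 3 - 5 * C A * X - 27 * C B) * fPoly A B =
      C (4 * A ^ 3 + 27 * B ^ 2) := by
  simp only [gPoly, fPoly, map_add, map_mul, map_pow, map_ofNat]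
  ring

theorem W2_eq (A B : F) (U V : F[X]) :
    W2 A B U V = 4 * V ^ 2 * fPoly A B +
      (U - X * V) * (2 * (U - X * V) * X + 4 * X ^ 2 * V + 2 * V * (X ^ 2 + C A)) := by
  simp only [W2, fPoly]
  ring

theorem W3_eq (A B : F) (U V : F[X]) :
    W3 A B U V = V ^ 2 * gPoly A B +
      (U - X * V) * ((U - X * V) * X ^ 2 + 2 * X * V * (X ^ 2 - C A) - 4 * C B * V) := by
  simp only [W3, gPoly]
  ring

/-- The triple `(W1, W2, W3)` is primitive. -/
theorem prim_W {A B : F} (h2 : (2 : F) ≠ 0) (hΔ : 4 * A ^ 3 + 27 * B ^ 2 ≠ 0) {U V : F[X]}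
    (hUV : IsCoprime U V) (p : F[X]) (hp : Irreducible p) (h1 : p ∣ W1 U V)
    (h2' : p ∣ W2 A B U V) (h3 : p ∣ W3 A B U V) : False := by
  have hpp : Prime p := hp.prime
  have hD : p ∣ U - X * V := hpp.dvd_of_dvd_pow h1
  have hV : ¬ p ∣ V := by
    intro hV
    have hU : p ∣ U := by
      have : p ∣ (U - X * V) + X * V := dvd_add hD (Dvd.dvd.mul_left hV X)
      simpa using this
    exact hp.not_isUnit (hUV.isUnit_of_dvd' hU hV)
  have hf : p ∣ 4 * V ^ 2 * fPoly A B := by
    have := dvd_sub h2' (Dvd.dvd.mul_right hD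
      (2 * (U - X * V) * X + 4 * X ^ 2 * V + 2 * V * (X ^ 2 + C A)))
    rwa [W2_eq, add_sub_cancel_right] at this
  have hg : p ∣ V ^ 2 * gPoly A B := by
    have := dvd_sub h3 (Dvd.dvd.mul_right hD
      ((U - X * V) * X ^ 2 + 2 * X * V * (X ^ 2 - C A) - 4 * C B * V))
    rwa [W3_eq, add_sub_cancel_right] at this
  have hkey : p ∣ V ^ 2 * C (4 * (4 * A ^ 3 + 27 * B ^ 2)) := by
    have h := dvd_sub (Dvd.dvd.mul_left hg (4 * (3 * X ^ 2 + 4 * C A)))
      (Dvd.dvd.mul_left hf (3 * X ^ 3 - 5 * C A * X - 27 * C B))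
    have e : 4 * (3 * X ^ 2 + 4 * C A) * (V ^ 2 * gPoly A B) -
        (3 * X ^ 3 - 5 * C A * X - 27 * C B) * (4 * V ^ 2 * fPoly A B) =
        V ^ 2 * C (4 * (4 * A ^ 3 + 27 * B ^ 2)) := by
      rw [C_mul, ← fg_identity A B]
      simp only [map_ofNat]
      ring
    rwa [e] at h
  rcases hpp.dvd_or_dvd hkey with h | h
  · exact hV (hpp.dvd_of_dvd_pow h)
  · have h4 : (4 : F) ≠ 0 := by
      have : (4 : F) = 2 * 2 := by norm_num
      rw [this]
      exact mul_ne_zero h2 h2
    have hu : IsUnit (C (4 * (4 * A ^ 3 + 27 * B ^ 2)) : F[X]) :=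
      Polynomial.isUnit_C.mpr (mul_ne_zero h4 hΔ).isUnit
    exact hp.not_isUnit (isUnit_of_dvd_unit h hu)

/-- The maximal degree of `(W1, W2, W3)`. -/
theorem natDegree_W (A B : F) {U V : F[X]} (hV : V ≠ 0) :
    max (W1 U V).natDegree (max (W2 A B U V).natDegree (W3 A B U V).natDegree) =
      2 * max U.natDegree V.natDegree + 2 := by
  have hXV : (X * V).natDegree = V.natDegree + 1 := by
    rw [natDegree_X_mul hV]
  have b1 : (W1 U V).natDegree ≤ 2 * max U.natDegree V.natDegree + 2 := by
    unfold W1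
    compute_degree
    omega
  have b2 : (W2 A B U V).natDegree ≤ 2 * max U.natDegree V.natDegree + 2 := by
    unfold W2
    compute_degree
    omega
  have b3 : (W3 A B U V).natDegree ≤ 2 * max U.natDegree V.natDegree + 2 := by
    unfold W3
    compute_degree
    omega
  rcases le_or_gt U.natDegree V.natDegree with h | h
  · -- `W1` attains the bound
    have hlt : U.natDegree < (X * V).natDegree := by omega
    have hD : (U - X * V).natDegree = V.natDegree + 1 := by
      rw [natDegree_sub_eq_right_of_natDegree_lt hlt, hXV]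
    have e1 : (W1 U V).natDegree = 2 * max U.natDegree V.natDegree + 2 := by
      rw [W1, natDegree_pow, hD, max_eq_right h]
      ring
    omega
  · -- `W3` attains the bound
    have hU : U ≠ 0 := by
      rintro rfl
      simp at h
    have hUX : (U * X).natDegree = U.natDegree + 1 := natDegree_mul_X hU
    have hAV : (C A * V).natDegree ≤ V.natDegree := natDegree_C_mul_le A V
    have hlt : (C A * V).natDegree < (U * X).natDegree := by omega
    have hD : (U * X - C A * V).natDegree = U.natDegree + 1 := by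
      rw [natDegree_sub_eq_left_of_natDegree_lt hlt, hUX]
    have hsq : ((U * X - C A * V) ^ 2).natDegree = 2 * U.natDegree + 2 := by
      rw [natDegree_pow, hD]
      ring
    have hrest : (4 * C B * V * (U + X * V)).natDegree ≤ V.natDegree + U.natDegree := by
      compute_degree
      omega
    have hlt' : (4 * C B * V * (U + X * V)).natDegree < ((U * X - C A * V) ^ 2).natDegree := by
      omega
    have e3 : (W3 A B U V).natDegree = 2 * max U.natDegree V.natDegree + 2 := by
      rw [W3, natDegree_sub_eq_left_of_natDegree_lt hlt', hsq, max_eq_left h.le]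
    omega

end Fermat.Agent.S52.H76
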