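/-
S52 / Program E, package E1 (helper76): Manin's identity (M*) on Mathlib's group law.

`F` a field with `2 ≠ 0`, `A B : F` with `4 A^3 + 27 B^2 ≠ 0`, `K = RatFunc F`, `t = RatFunc.X`,
`lam = t^3 + A t + B`.  The twist `lam y^2 = x^3 + A x + B` is put in Weierstrass form
`Etw : Y^2 = X^3 + A lam^2 X + B lam^3` (`X = lam x`, `Y = lam^2 y`), `P0 = (lam t, lam^2)`
(i.e. `(x, y) = (t, 1)`), and `hP P = ht (X_P / lam)` (`hP 0 = 0`).  Then for ALL points `P`

  `hP (P + P0) + hP (P - P0) = 2 * hP P + 2`.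

Mathlib only.
-/
import Fermat.Agent.S52.H76.MStarPoly

set_option autoImplicit false

open Polynomial

noncomputable section

namespace Fermat.Agent.S52.H76

/-! ### Field identities -/

theorem addsub_sum {K : Type*} [Field K] {A B t lam x y : K} (hlam : lam = t ^ 3 + A * t + B)
    (hl0 : lam ≠ 0) (heq : y ^ 2 = x ^ 3 + A * lam ^ 2 * x + B * lam ^ 3) (hx : x ≠ lam * t) :
    (((y - lam ^ 2) / (x - lam * t)) ^ 2 - x - lam * t) / lam +
      (((y + lam ^ 2) / (x - lam * t)) ^ 2 - x - lam * t) / lam =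
      (2 * (x / lam * t + A) * (x / lam + t) + 4 * B) / (x / lam - t) ^ 2 := by
  have hd : x - lam * t ≠ 0 := sub_ne_zero.mpr hx
  have e1 : (((y - lam ^ 2) / (x - lam * t)) ^ 2 - x - lam * t) / lam +
      (((y + lam ^ 2) / (x - lam * t)) ^ 2 - x - lam * t) / lam =
      (2 * y ^ 2 + 2 * lam ^ 4 - (2 * x + 2 * lam * t) * (x - lam * t) ^ 2) /
        (lam * (x - lam * t) ^ 2) := by
    field_simp
    ring
  have e2 : (2 * (x / lam * t + A) * (x / lam + t) + 4 * B) / (x / lam - t) ^ 2 =
      (2 * (x * t + A * lam) * (x + lam * t) + 4 * B * lam ^ 2) / (x - lam * t) ^ 2 := by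
    have : x / lam - t = (x - lam * t) / lam := by field_simp
    rw [this]
    field_simp
  rw [e1, e2, heq, div_eq_div_iff (mul_ne_zero hl0 (pow_ne_zero 2 hd)) (pow_ne_zero 2 hd)]
  linear_combination (2 * lam ^ 3 * (x - lam * t) ^ 2) * hlam

theorem addsub_prod {K : Type*} [Field K] {A B t lam x y : K} (hlam : lam = t ^ 3 + A * t + B)
    (hl0 : lam ≠ 0) (heq : y ^ 2 = x ^ 3 + A * lam ^ 2 * x + B * lam ^ 3) (hx : x ≠ lam * t) :
    ((((y - lam ^ 2) / (x - lam * t)) ^ 2 - x - lam * t) / lam) *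
      ((((y + lam ^ 2) / (x - lam * t)) ^ 2 - x - lam * t) / lam) =
      ((x / lam * t - A) ^ 2 - 4 * B * (x / lam + t)) / (x / lam - t) ^ 2 := by
  have hd : x - lam * t ≠ 0 := sub_ne_zero.mpr hx
  have e1 : ((((y - lam ^ 2) / (x - lam * t)) ^ 2 - x - lam * t) / lam) *
      ((((y + lam ^ 2) / (x - lam * t)) ^ 2 - x - lam * t) / lam) =
      ((y ^ 2 - lam ^ 4) ^ 2 - 2 * (x + lam * t) * (x - lam * t) ^ 2 * (y ^ 2 + lam ^ 4) +
        (x + lam * t) ^ 2 * (x - lam * t) ^ 4) / (lam ^ 2 * (x - lam * t) ^ 4) := by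
    field_simp
    ring
  have e2 : ((x / lam * t - A) ^ 2 - 4 * B * (x / lam + t)) / (x / lam - t) ^ 2 =
      ((x * t - A * lam) ^ 2 - 4 * B * lam * (x + lam * t)) / (x - lam * t) ^ 2 := by
    have : x / lam - t = (x - lam * t) / lam := by field_simp
    rw [this]
    field_simp
  rw [e1, e2, heq, div_eq_div_iff (mul_ne_zero (pow_ne_zero 2 hl0) (pow_ne_zero 4 hd))
    (pow_ne_zero 2 hd)]
  have hB : B = lam - t ^ 3 - A * t := by rw [hlam]; ring
  subst hB
  ring

theorem dbl_identity {K : Type*} [Field K] {A B t lam : K} (hlam : lam = t ^ 3 + A * t + B)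
    (hl0 : lam ≠ 0) (h2 : (2 : K) ≠ 0) :
    (((3 * (lam * t) ^ 2 + A * lam ^ 2) / (2 * lam ^ 2)) ^ 2 - lam * t - lam * t) / lam =
      ((t ^ 2 - A) ^ 2 - 8 * B * t) / (4 * lam) := by
  have h4 : (4 : K) ≠ 0 := by
    have : (4 : K) = 2 * 2 := by norm_num
    rw [this]
    exact mul_ne_zero h2 h2
  have hB : B = lam - t ^ 3 - A * t := by rw [hlam]; ring
  subst hB
  field_simp
  ring

/-- Passing from `x' = u / v` to the polynomial triple. -/
theorem triple_sum {K : Type*} [Field K] {A B t x' u v : K} (hv : v ≠ 0) (hu : u = x' * v)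
    (hne : x' - t ≠ 0) :
    (2 * (x' * t + A) * (x' + t) + 4 * B) / (x' - t) ^ 2 =
      (2 * (u * t + A * v) * (u + t * v) + 4 * B * v ^ 2) / (u - t * v) ^ 2 := by
  have : u - t * v = (x' - t) * v := by rw [hu]; ring
  rw [this, hu]
  field_simp

theorem triple_prod {K : Type*} [Field K] {A B t x' u v : K} (hv : v ≠ 0) (hu : u = x' * v)
    (hne : x' - t ≠ 0) :
    ((x' * t - A) ^ 2 - 4 * B * (x' + t)) / (x' - t) ^ 2 =
      ((u * t - A * v) ^ 2 - 4 * B * v * (u + t * v)) / (u - t * v) ^ 2 := by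
  have : u - t * v = (x' - t) * v := by rw [hu]; ring
  rw [this, hu]
  field_simp

/-! ### The twist and its points -/

variable {F : Type*} [Field F] (A B : F)

/-- `lam = f(t) = t^3 + A t + B` in `F(t)`. -/
def lam : RatFunc F := algebraMap F[X] (RatFunc F) (fPoly A B)

theorem lam_eq : lam A B = RatFunc.X ^ 3 + RatFunc.C A * RatFunc.X + RatFunc.C B := by
  simp [lam, fPoly]

theorem fPoly_monic : (fPoly A B).Monic := by
  unfold fPoly
  monicity!

theorem fPoly_natDegree : (fPoly A B).natDegree = 3 := by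
  unfold fPoly
  compute_degree!

theorem gPoly_natDegree : (gPoly A B).natDegree = 4 := by
  unfold gPoly
  compute_degree!

theorem lam_ne_zero : lam A B ≠ 0 :=
  RatFunc.algebraMap_ne_zero (fPoly_monic A B).ne_zero

theorem two_ne_zero_ratFunc (h2 : (2 : F) ≠ 0) : (2 : RatFunc F) ≠ 0 := by
  have h : (2 : RatFunc F) = RatFunc.C (2 : F) := (map_ofNat RatFunc.C 2).symm
  rw [h]
  exact (_root_.map_ne_zero _).mpr h2

/-- The twist `lam y^2 = x^3 + A x + B` in Weierstrass form. -/
def Etw : WeierstrassCurve (RatFunc F) :=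
  { a₁ := 0, a₂ := 0, a₃ := 0, a₄ := RatFunc.C A * lam A B ^ 2, a₆ := RatFunc.C B * lam A B ^ 3 }

theorem Etw_equation_iff (x y : RatFunc F) : (Etw A B).toAffine.Equation x y ↔
    y ^ 2 = x ^ 3 + RatFunc.C A * lam A B ^ 2 * x + RatFunc.C B * lam A B ^ 3 := by
  rw [WeierstrassCurve.Affine.equation_iff]
  simp [Etw]

theorem P0_nonsingular (h2 : (2 : F) ≠ 0) :
    (Etw A B).toAffine.Nonsingular (lam A B * RatFunc.X) (lam A B ^ 2) := by
  rw [WeierstrassCurve.Affine.nonsingular_iff', Etw_equation_iff]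
  refine ⟨?_, Or.inr ?_⟩
  · linear_combination (lam A B ^ 3) * lam_eq A B
  · simp only [Etw, zero_mul, add_zero]
    exact mul_ne_zero (two_ne_zero_ratFunc h2) (pow_ne_zero 2 (lam_ne_zero A B))

/-- The point `P0 = (t, 1)` of the twist. -/
def P0 (h2 : (2 : F) ≠ 0) : (Etw A B).toAffine.Point := .some _ _ (P0_nonsingular A B h2)

/-- The height of a point of the twist: the height of its `x`-coordinate `X / lam`. -/
def hP : (Etw A B).toAffine.Point → ℕ
  | .zero => 0
  | .some x _ _ => ht (x / lam A B)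

@[simp] theorem hP_zero : hP A B 0 = 0 := rfl

theorem hP_some {x y : RatFunc F} (h : (Etw A B).toAffine.Nonsingular x y) :
    hP A B (.some x y h) = ht (x / lam A B) := rfl

theorem hP_neg (P : (Etw A B).toAffine.Point) : hP A B (-P) = hP A B P := by
  rcases P with _ | ⟨x, y, h⟩
  · rfl
  · rfl

theorem ht_X : ht (RatFunc.X : RatFunc F) = 1 := by
  have h : (RatFunc.X : RatFunc F) =
      algebraMap F[X] (RatFunc F) X / algebraMap F[X] (RatFunc F) 1 := by simp
  rw [ht_eq one_ne_zero isCoprime_one_right h]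
  simp

theorem hP_P0 (h2 : (2 : F) ≠ 0) : hP A B (P0 A B h2) = 1 := by
  rw [P0, hP_some, mul_div_cancel_left₀ _ (lam_ne_zero A B), ht_X]

/-- `f` and `g` are coprime. -/
theorem isCoprime_g_f (h2 : (2 : F) ≠ 0) (hΔ : 4 * A ^ 3 + 27 * B ^ 2 ≠ 0) :
    IsCoprime (gPoly A B) (4 * fPoly A B) := by
  have h4 : (4 : F) ≠ 0 := by
    have : (4 : F) = 2 * 2 := by norm_num
    rw [this]
    exact mul_ne_zero h2 h2
  refine ⟨C (4 * A ^ 3 + 27 * B ^ 2)⁻¹ * (3 * X ^ 2 + 4 * C A),
    -(C (4 * A ^ 3 + 27 * B ^ 2)⁻¹ * C (4 : F)⁻¹ * (3 * X ^ 3 - 5 * C A * X - 27 * C B)), ?_⟩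
  have h1 : C (4 * A ^ 3 + 27 * B ^ 2)⁻¹ * C (4 * A ^ 3 + 27 * B ^ 2) = (1 : F[X]) := by
    rw [← C_mul, inv_mul_cancel₀ hΔ, C_1]
  have h41 : C (4 : F)⁻¹ * (4 : F[X]) = 1 := by
    have : (4 : F[X]) = C (4 : F) := (map_ofNat C 4).symm
    rw [this, ← C_mul, inv_mul_cancel₀ h4, C_1]
  have hfg := fg_identity A B
  calc C (4 * A ^ 3 + 27 * B ^ 2)⁻¹ * (3 * X ^ 2 + 4 * C A) * gPoly A B +
        -(C (4 * A ^ 3 + 27 * B ^ 2)⁻¹ * C (4 : F)⁻¹ * (3 * X ^ 3 - 5 * C A * X - 27 * C B)) *
          (4 * fPoly A B)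
      = C (4 * A ^ 3 + 27 * B ^ 2)⁻¹ * ((3 * X ^ 2 + 4 * C A) * gPoly A B -
          (C (4 : F)⁻¹ * 4) * ((3 * X ^ 3 - 5 * C A * X - 27 * C B) * fPoly A B)) := by ring
    _ = 1 := by rw [h41, one_mul, hfg, h1]

variable [DecidableEq (RatFunc F)]

theorem hP_two_P0 (h2 : (2 : F) ≠ 0) (hΔ : 4 * A ^ 3 + 27 * B ^ 2 ≠ 0) :
    hP A B (P0 A B h2 + P0 A B h2) = 4 := by
  have h2K := two_ne_zero_ratFunc h2
  have hl := lam_ne_zero A B
  have hy : lam A B ^ 2 ≠ (Etw A B).toAffine.negY (lam A B * RatFunc.X) (lam A B ^ 2) := by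
    simp only [WeierstrassCurve.Affine.negY, Etw, zero_mul, sub_zero]
    intro h
    have h' : 2 * lam A B ^ 2 = 0 := by linear_combination h
    exact mul_ne_zero h2K (pow_ne_zero 2 hl) h'
  have h4 : (4 : F) ≠ 0 := by
    have : (4 : F) = 2 * 2 := by norm_num
    rw [this]
    exact mul_ne_zero h2 h2
  have h4f : (4 * fPoly A B : F[X]) ≠ 0 := by
    have : (4 : F[X]) = C (4 : F) := (map_ofNat C 4).symm
    rw [this]
    exact mul_ne_zero (C_ne_zero.mpr h4) (fPoly_monic A B).ne_zero
  rw [P0, WeierstrassCurve.Affine.Point.add_self_of_Y_ne hy, hP_some,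
    WeierstrassCurve.Affine.slope_of_Y_ne rfl hy]
  have e : (Etw A B).toAffine.addX (lam A B * RatFunc.X) (lam A B * RatFunc.X)
      ((3 * (lam A B * RatFunc.X) ^ 2 + 2 * (Etw A B).toAffine.a₂ * (lam A B * RatFunc.X) +
        (Etw A B).toAffine.a₄ - (Etw A B).toAffine.a₁ * lam A B ^ 2) /
        (lam A B ^ 2 - (Etw A B).toAffine.negY (lam A B * RatFunc.X) (lam A B ^ 2))) / lam A B =
      algebraMap F[X] (RatFunc F) (gPoly A B) / algebraMap F[X] (RatFunc F) (4 * fPoly A B) := by
    have e1 : algebraMap F[X] (RatFunc F) (gPoly A B) =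
        (RatFunc.X ^ 2 - RatFunc.C A) ^ 2 - 8 * RatFunc.C B * RatFunc.X := by
      simp [gPoly, map_ofNat]
    have e2 : algebraMap F[X] (RatFunc F) (4 * fPoly A B) = 4 * lam A B := by
      simp [lam, map_ofNat]
    rw [e1, e2, ← dbl_identity (lam_eq A B) hl h2K]
    simp only [WeierstrassCurve.Affine.addX, WeierstrassCurve.Affine.negY, Etw, zero_mul,
      mul_zero, sub_zero, add_zero]
    congr 2
    ring
  rw [e, ht_eq h4f (isCoprime_g_f A B h2 hΔ) rfl, gPoly_natDegree]
  have : (4 * fPoly A B : F[X]).natDegree = 3 := by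
    have h4' : (4 : F[X]) = C (4 : F) := (map_ofNat C 4).symm
    rw [h4', natDegree_C_mul h4, fPoly_natDegree]
  rw [this]
  rfl

/-- **Manin's identity (M\*)**: `h(P + P0) + h(P - P0) = 2 h(P) + 2` for every point `P` of the
twist. -/
theorem mstar (h2 : (2 : F) ≠ 0) (hΔ : 4 * A ^ 3 + 27 * B ^ 2 ≠ 0)
    (P : (Etw A B).toAffine.Point) :
    hP A B (P + P0 A B h2) + hP A B (P - P0 A B h2) = 2 * hP A B P + 2 := by
  have h2K := two_ne_zero_ratFunc h2
  have hl := lam_ne_zero A B
  rcases P with _ | ⟨x, y, h⟩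
  · -- `P = 0`
    change hP A B (0 + P0 A B h2) + hP A B (0 - P0 A B h2) = 2 * hP A B 0 + 2
    rw [zero_add, zero_sub, hP_neg, hP_P0, hP_zero]
  · have heq := (Etw_equation_iff A B x y).mp h.1
    by_cases hx : x = lam A B * RatFunc.X
    · -- `P = ± P0`
      subst hx
      have hy2 : (y - lam A B ^ 2) * (y + lam A B ^ 2) = 0 := by
        linear_combination heq - (lam A B ^ 3) * lam_eq A B
      rcases mul_eq_zero.mp hy2 with hy | hy
      · -- `P = P0`
        have hy' : y = lam A B ^ 2 := by linear_combination hy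
        subst hy'
        change hP A B (P0 A B h2 + P0 A B h2) + hP A B (P0 A B h2 - P0 A B h2) =
          2 * hP A B (P0 A B h2) + 2
        rw [sub_self, hP_zero, hP_two_P0 A B h2 hΔ, hP_P0]
      · -- `P = -P0`
        have hy' : y = -lam A B ^ 2 := by linear_combination hy
        subst hy'
        have hP : WeierstrassCurve.Affine.Point.some _ _ h = -P0 A B h2 := by
          rw [P0, WeierstrassCurve.Affine.Point.neg_some]
          congr 1
          simp [WeierstrassCurve.Affine.negY, Etw]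
        rw [hP, neg_add_cancel, hP_zero, ← neg_add', hP_neg, hP_neg, hP_two_P0 A B h2 hΔ, hP_P0]
    · -- generic case
      have hny : (Etw A B).toAffine.negY (lam A B * RatFunc.X) (lam A B ^ 2) = -lam A B ^ 2 := by
        simp [WeierstrassCurve.Affine.negY, Etw]
      have hx' : x / lam A B - RatFunc.X ≠ 0 := by
        intro h0
        apply hx
        field_simp at h0
        linear_combination h0
      have hV : (x / lam A B).denom ≠ 0 := RatFunc.denom_ne_zero _
      have hV' : algebraMap F[X] (RatFunc F) (x / lam A B).denom ≠ 0 :=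
        RatFunc.algebraMap_ne_zero hV
      have hUV : IsCoprime (x / lam A B).num (x / lam A B).denom := RatFunc.isCoprime_num_denom _
      have hU : algebraMap F[X] (RatFunc F) (x / lam A B).num =
          x / lam A B * algebraMap F[X] (RatFunc F) (x / lam A B).denom := by
        have := RatFunc.num_div_denom (x / lam A B)
        rw [div_eq_iff hV'] at this
        exact this
      have m1 : algebraMap F[X] (RatFunc F) (W1 (x / lam A B).num (x / lam A B).denom) =
          (algebraMap F[X] (RatFunc F) (x / lam A B).num -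
            RatFunc.X * algebraMap F[X] (RatFunc F) (x / lam A B).denom) ^ 2 := by
        simp [W1]
      have m2 : algebraMap F[X] (RatFunc F) (W2 A B (x / lam A B).num (x / lam A B).denom) =
          2 * (algebraMap F[X] (RatFunc F) (x / lam A B).num * RatFunc.X +
            RatFunc.C A * algebraMap F[X] (RatFunc F) (x / lam A B).denom) *
            (algebraMap F[X] (RatFunc F) (x / lam A B).num +
              RatFunc.X * algebraMap F[X] (RatFunc F) (x / lam A B).denom) +
            4 * RatFunc.C B * algebraMap F[X] (RatFunc F) (x / lam A B).denom ^ 2 := by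
        simp [W2, map_ofNat]
      have m3 : algebraMap F[X] (RatFunc F) (W3 A B (x / lam A B).num (x / lam A B).denom) =
          (algebraMap F[X] (RatFunc F) (x / lam A B).num * RatFunc.X -
            RatFunc.C A * algebraMap F[X] (RatFunc F) (x / lam A B).denom) ^ 2 -
            4 * RatFunc.C B * algebraMap F[X] (RatFunc F) (x / lam A B).denom *
              (algebraMap F[X] (RatFunc F) (x / lam A B).num +
                RatFunc.X * algebraMap F[X] (RatFunc F) (x / lam A B).denom) := by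
        simp [W3, map_ofNat]
      have hW1 : W1 (x / lam A B).num (x / lam A B).denom ≠ 0 := by
        intro h0
        have h0' := congrArg (algebraMap F[X] (RatFunc F)) h0
        rw [m1, map_zero, hU] at h0'
        have h1 : (x / lam A B - RatFunc.X) *
            algebraMap F[X] (RatFunc F) (x / lam A B).denom = 0 := by
          have := pow_eq_zero_iff (two_ne_zero) |>.mp h0'
          linear_combination this
        rcases mul_eq_zero.mp h1 with h | h
        · exact hx' h
        · exact hV' h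
      have key := ht_add_ht (r := (Etw A B).toAffine.addX x (lam A B * RatFunc.X)
          ((Etw A B).toAffine.slope x (lam A B * RatFunc.X) y (lam A B ^ 2)) / lam A B)
        (s := (Etw A B).toAffine.addX x (lam A B * RatFunc.X)
          ((Etw A B).toAffine.slope x (lam A B * RatFunc.X) y (-lam A B ^ 2)) / lam A B)
        hW1 (prim_W h2 hΔ hUV)
        (by
          rw [m1, m2, ← triple_sum hV' hU hx', ← addsub_sum (lam_eq A B) hl heq hx,
            WeierstrassCurve.Affine.slope_of_X_ne hx, WeierstrassCurve.Affine.slope_of_X_ne hx]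
          simp only [WeierstrassCurve.Affine.addX, Etw, zero_mul, add_zero, sub_zero, sub_neg_eq_add])
        (by
          rw [m1, m3, ← triple_prod hV' hU hx', ← addsub_prod (lam_eq A B) hl heq hx,
            WeierstrassCurve.Affine.slope_of_X_ne hx, WeierstrassCurve.Affine.slope_of_X_ne hx]
          simp only [WeierstrassCurve.Affine.addX, Etw, zero_mul, add_zero, sub_zero, sub_neg_eq_add])
      rw [natDegree_W A B hV] at key
      rw [sub_eq_add_neg, P0, WeierstrassCurve.Affine.Point.neg_some,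
        WeierstrassCurve.Affine.Point.add_of_X_ne hx, WeierstrassCurve.Affine.Point.add_of_X_ne hx,
        hP_some, hP_some, hP_some]
      simp only [hny]
      exact key

end Fermat.Agent.S52.H76
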