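/-
S52 / Program E, package E1 (helper76): the leaf (MZ) on the model of `MStar.lean`:

  `hP R = 0 → 2 • R = 0`   for every point `R` of the twist `Etw A B`.

A point of height `0` has constant `x = X / lam`, say `c`; then `Y^2 = (c^3 + A c + B) lam^3`, and
since `lam^3` has odd degree `9` this forces `c^3 + A c + B = 0`, `Y = 0`.  Mathlib only.
-/
import Fermat.Agent.S52.H76.MStar

set_option autoImplicit false

open Polynomial

noncomputable section

namespace Fermat.Agent.S52.H76

variable {F : Type*} [Field F] (A B : F)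

/-- A rational function of height `0` is a constant. -/
theorem exists_eq_C_of_ht_eq_zero {r : RatFunc F} (h : ht r = 0) : ∃ c : F, r = RatFunc.C c := by
  rw [ht, Nat.max_eq_zero_iff] at h
  exact (RatFunc.eq_C_iff r).mpr h

theorem intDegree_lam : (lam A B).intDegree = 3 := by
  rw [lam, RatFunc.intDegree_polynomial, fPoly_natDegree]
  rfl

/-- `d * lam^3` is not a square for a nonzero constant `d`. -/
theorem not_sq_eq_C_mul_lam_cube {d : F} (hd : d ≠ 0) (y : RatFunc F) :
    y ^ 2 ≠ RatFunc.C d * lam A B ^ 3 := by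
  intro h
  have hl := lam_ne_zero A B
  have hC : (RatFunc.C d : RatFunc F) ≠ 0 := (_root_.map_ne_zero _).mpr hd
  have hy : y ≠ 0 := by
    rintro rfl
    rw [zero_pow two_ne_zero] at h
    exact mul_ne_zero hC (pow_ne_zero 3 hl) h.symm
  have h1 : (y ^ 2).intDegree = 2 * y.intDegree := by
    rw [pow_two, RatFunc.intDegree_mul hy hy]
    ring
  have h2 : (RatFunc.C d * lam A B ^ 3).intDegree = 9 := by
    rw [RatFunc.intDegree_mul hC (pow_ne_zero 3 hl), RatFunc.intDegree_C, pow_succ, pow_two,
      RatFunc.intDegree_mul (mul_ne_zero hl hl) hl, RatFunc.intDegree_mul hl hl, intDegree_lam]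
    norm_num
  rw [h] at h1
  omega

variable [DecidableEq (RatFunc F)]

/-- **(MZ)**: a point of height `0` is killed by `2`. -/
theorem mz (R : (Etw A B).toAffine.Point) (hR : hP A B R = 0) : 2 • R = 0 := by
  rcases R with _ | ⟨x, y, h⟩
  · exact smul_zero (A := (Etw A B).toAffine.Point) 2
  · have hl := lam_ne_zero A B
    have heq := (Etw_equation_iff A B x y).mp h.1
    rw [hP_some] at hR
    obtain ⟨c, hc⟩ := exists_eq_C_of_ht_eq_zero hR
    have hx : x = RatFunc.C c * lam A B := by
      rw [← hc]
      field_simp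
    have hy2 : y ^ 2 = RatFunc.C (c ^ 3 + A * c + B) * lam A B ^ 3 := by
      rw [heq, hx]
      simp only [map_add, map_mul, map_pow]
      ring
    have hd : c ^ 3 + A * c + B = 0 := by
      by_contra hd
      exact not_sq_eq_C_mul_lam_cube A B hd y hy2
    rw [hd, map_zero, zero_mul] at hy2
    have hy : y = 0 := pow_eq_zero_iff two_ne_zero |>.mp hy2
    rw [two_nsmul]
    apply WeierstrassCurve.Affine.Point.add_self_of_Y_eq
    simp [WeierstrassCurve.Affine.negY, Etw, hy]

end Fermat.Agent.S52.H76
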