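/-
S52 / Program E, package E1 (helper76): the bridge between the two landed models of the twist,

* `H76` (`MStar.lean`):  `lam = algebraMap (fPoly A B)`, `Etw`, `P0`, `hP`   [used by (M*), (MN), H94],
* `H99` (`Endo.lean`):   `lam = X^3 + C A * X + C B`, `Elam`, `P0`, `hP`, `Phi`   [(MPhi), (Msig)],

and, through it, the leaves `PhiExistsStatement`, `PhiHeightStatement`, `SigmaStatement`,
`MZStatement` of `H94/CHModel.lean` on the `H76` model.
-/
import Fermat.Agent.S52.H94.CHModel
import Fermat.Agent.S52.H99.Leaves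
import Fermat.Agent.S52.H76.MZ

set_option autoImplicit false

open WeierstrassCurve WeierstrassCurve.Affine

noncomputable section

namespace Fermat.Agent.S52.H76

/-! ### Transport of points along an equality of curves -/

section Cast

variable {K : Type*} [Field K]

theorem some_eq_some {W : Affine K} {x y x' y' : K} (h : W.Nonsingular x y)
    (h' : W.Nonsingular x' y') (hx : x = x') (hy : y = y') :
    Point.some x y h = Point.some x' y' h' := by
  subst hx hy
  rfl

theorem exists_some_eq {W : Affine K} {P : W.Point} {x y x' y' : K} (h : W.Nonsingular x y)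
    (hP : P = .some x y h) (hx : x = x') (hy : y = y') :
    ∃ h' : W.Nonsingular x' y', P = .some x' y' h' := by
  subst hx hy
  exact ⟨h, hP⟩

variable [DecidableEq K]

/-- Transport of points along an equality of Weierstrass curves. -/
def ptCast {W W' : WeierstrassCurve K} (h : W = W') : W.toAffine.Point ≃+ W'.toAffine.Point :=
  h ▸ AddEquiv.refl _

theorem ptCast_some {W W' : WeierstrassCurve K} (h : W = W') {x y : K}
    (hxy : W.toAffine.Nonsingular x y) :
    ∃ hxy' : W'.toAffine.Nonsingular x y, ptCast h (.some x y hxy) = .some x y hxy' := by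
  subst h
  exact ⟨hxy, rfl⟩

theorem ptCast_symm_some {W W' : WeierstrassCurve K} (h : W = W') {x y : K}
    (hxy : W'.toAffine.Nonsingular x y) :
    ∃ hxy' : W.toAffine.Nonsingular x y, (ptCast h).symm (.some x y hxy) = .some x y hxy' := by
  subst h
  exact ⟨hxy, rfl⟩

end Cast

/-! ### The two models -/

variable {F : Type*} [Field F] (A B : F)

theorem lam_eq_lam99 : lam A B = H99.lam A B := lam_eq A B

theorem Etw_eq_Elam : Etw A B = H99.Elam A B := by
  rw [H99.Elam_eq, ← lam_eq_lam99]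
  rfl

variable [DecidableEq (RatFunc F)]

/-- The identification of the groups of points of the two models. -/
def toE99 : (Etw A B).toAffine.Point ≃+ (H99.Elam A B).toAffine.Point :=
  ptCast (Etw_eq_Elam A B)

theorem hP_toE99 (P : (Etw A B).toAffine.Point) : H99.hP A B (toE99 A B P) = hP A B P := by
  rcases P with _ | ⟨x, y, h⟩
  · change H99.hP A B (toE99 A B 0) = hP A B 0
    rw [map_zero]
    rfl
  · obtain ⟨h', e⟩ := ptCast_some (Etw_eq_Elam A B) h
    rw [toE99, e, H99.hP_some, hP_some, lam_eq_lam99]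
    rfl

theorem toE99_P0 (h2 : (2 : F) ≠ 0) : toE99 A B (P0 A B h2) = H99.P0 A B h2 := by
  obtain ⟨h', e⟩ := ptCast_some (Etw_eq_Elam A B) (P0_nonsingular A B h2)
  rw [P0, toE99, e, H99.P0]
  exact some_eq_some _ _ (by rw [lam_eq_lam99]) (by rw [lam_eq_lam99])

/-- An additive map with the coordinate formula of `IsPhi` is unique. -/
theorem isPhi_unique (l : ℕ) {Φ Φ' : (Etw A B).toAffine.Point →+ (Etw A B).toAffine.Point}
    (h : H94.IsPhi A B l Φ) (h' : H94.IsPhi A B l Φ') : Φ = Φ' := by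
  ext P
  rcases P with _ | ⟨x, y, hxy⟩
  · change Φ 0 = Φ' 0
    rw [map_zero, map_zero]
  · obtain ⟨h1, e1⟩ := h x y hxy
    obtain ⟨h2, e2⟩ := h' x y hxy
    rw [e1, e2]

section Phi

variable (l : ℕ) [ExpChar F l]

/-- The Frobenius endomorphism of `H99` transported to the `H76` model. -/
def Phi76 (hl : Odd l) (hA : A ^ l = A) (hB : B ^ l = B) : (Etw A B).toAffine.Point →+ (Etw A B).toAffine.Point :=
  ((toE99 A B).symm.toAddMonoidHom.comp (H99.Phi l A B hl hA hB)).comp (toE99 A B).toAddMonoidHom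

theorem Phi76_apply (hl : Odd l) (hA : A ^ l = A) (hB : B ^ l = B)
    (P : (Etw A B).toAffine.Point) :
    Phi76 A B l hl hA hB P = (toE99 A B).symm (H99.Phi l A B hl hA hB (toE99 A B P)) := rfl

theorem toE99_Phi76 (hl : Odd l) (hA : A ^ l = A) (hB : B ^ l = B)
    (P : (Etw A B).toAffine.Point) :
    toE99 A B (Phi76 A B l hl hA hB P) = H99.Phi l A B hl hA hB (toE99 A B P) := by
  rw [Phi76_apply, AddEquiv.apply_symm_apply]

theorem isPhi_Phi76 (hl : Odd l) (hA : A ^ l = A) (hB : B ^ l = B) :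
    H94.IsPhi A B l (Phi76 A B l hl hA hB) := by
  intro x y h
  obtain ⟨h1, e1⟩ := ptCast_some (Etw_eq_Elam A B) h
  obtain ⟨h2, e2⟩ := H99.lamEnd_some A B (frobenius (RatFunc F) l) (H99.lam A B ^ ((l - 1) / 2))
    (pow_ne_zero _ (H99.lam_ne_zero A B)) (H99.frobenius_C_eq l A hA) (H99.frobenius_C_eq l B hB)
    (H99.frobenius_lam l A B hl) h1
  obtain ⟨h3, e3⟩ := ptCast_symm_some (Etw_eq_Elam A B) h2
  have e : Phi76 A B l hl hA hB (.some x y h) = .some _ _ h3 := by
    rw [Phi76_apply, toE99, e1, H99.Phi, e2, e3]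
  exact exists_some_eq h3 e (by rw [frobenius_def, lam_eq_lam99])
    (by rw [frobenius_def, lam_eq_lam99])

/-- Leaf (L1) of `H94/CHModel.lean`. -/
theorem phiExistsStatement_of (hl : Odd l) (hA : A ^ l = A) (hB : B ^ l = B) :
    H94.PhiExistsStatement A B l :=
  ⟨Phi76 A B l hl hA hB, isPhi_Phi76 A B l hl hA hB⟩

/-- Leaf (L2) of `H94/CHModel.lean`. -/
theorem phiHeightStatement_of (hl : Odd l) (hA : A ^ l = A) (hB : B ^ l = B) :
    H94.PhiHeightStatement A B l := by
  intro Φ hΦ P
  rw [isPhi_unique A B l hΦ (isPhi_Phi76 A B l hl hA hB), ← hP_toE99, toE99_Phi76, H99.hP_Phi,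
    hP_toE99]

/-- Leaf (L3) of `H94/CHModel.lean`. -/
theorem sigmaStatement_of (hl : Odd l) (hA : A ^ l = A) (hB : B ^ l = B) (h2 : (2 : F) ≠ 0) :
    H94.SigmaStatement A B h2 l := by
  intro Φ hΦ Q hQ
  rw [isPhi_unique A B l hΦ (isPhi_Phi76 A B l hl hA hB)]
  have hQ' : H99.hP A B (toE99 A B Q) ≠ 0 := by rwa [hP_toE99]
  obtain ⟨σ, hσ0, hσΦ, hσh⟩ := H99.exists_sigma l A B hl hA hB h2 (toE99 A B Q) hQ'
  refine ⟨((toE99 A B).symm.toAddMonoidHom.comp σ).comp (toE99 A B).toAddMonoidHom, ?_, ?_, ?_⟩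
  · change (toE99 A B).symm (σ (toE99 A B (P0 A B h2))) = Q
    rw [toE99_P0, hσ0, AddEquiv.symm_apply_apply]
  · intro P
    change (toE99 A B).symm (σ (toE99 A B (Phi76 A B l hl hA hB P))) =
      Phi76 A B l hl hA hB ((toE99 A B).symm (σ (toE99 A B P)))
    rw [toE99_Phi76, hσΦ, Phi76_apply, AddEquiv.apply_symm_apply]
  · intro P
    change hP A B ((toE99 A B).symm (σ (toE99 A B P))) = hP A B P * hP A B Q
    rw [← hP_toE99, AddEquiv.apply_symm_apply, hσh, hP_toE99, hP_toE99]

end Phi

/-- Leaf (L4) of `H94/CHModel.lean`. -/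
theorem mzStatement : H94.MZStatement A B := mz A B

end Fermat.Agent.S52.H76

/-! ### The finite-field instances -/

namespace Fermat.Agent.S52.H76

section ZModInst

variable (l : ℕ) [Fact l.Prime] (A B : ZMod l) [DecidableEq (RatFunc (ZMod l))]

theorem phiExistsStatement_zmod (hodd : l ≠ 2) : H94.PhiExistsStatement A B l := by
  have : ExpChar (ZMod l) l := ExpChar.prime Fact.out
  exact phiExistsStatement_of A B l ((Fact.out : l.Prime).odd_of_ne_two hodd) (ZMod.pow_card A)
    (ZMod.pow_card B)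

theorem phiHeightStatement_zmod (hodd : l ≠ 2) : H94.PhiHeightStatement A B l := by
  have : ExpChar (ZMod l) l := ExpChar.prime Fact.out
  exact phiHeightStatement_of A B l ((Fact.out : l.Prime).odd_of_ne_two hodd) (ZMod.pow_card A)
    (ZMod.pow_card B)

theorem sigmaStatement_zmod (hodd : l ≠ 2) (h2 : (2 : ZMod l) ≠ 0) :
    H94.SigmaStatement A B h2 l := by
  have : ExpChar (ZMod l) l := ExpChar.prime Fact.out
  exact sigmaStatement_of A B l ((Fact.out : l.Prime).odd_of_ne_two hodd) (ZMod.pow_card A)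
    (ZMod.pow_card B) h2

end ZModInst

end Fermat.Agent.S52.H76
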